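/-
Lib/EtaUnit (architect helper213).  TASK EUK-1.
Proofs: helper40 (sorry-free).

The modular unit `G(τ) / G(m τ)` over an ARBITRARY field `K` of characteristic zero, as an element
of `S18.FK K N = laurentBaseChange K (modularFunctionFieldFull N)`; horizontal integrality.
-/
import Fermat.Agent.Lib.EtaUnit.Main
import Fermat.Agent.Lib.Hauptmodul.Basic
import Fermat.Agent.S18.ModDefs
import Fermat.Agent.S18.Descent.Union
import Fermat.Agent.S18.Descent.Chart
import Fermat.Agent.S18.Places.Dedekind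
import Fermat.Agent.S28.Export.UMem

set_option autoImplicit false

namespace Fermat.Agent.Lib.EtaUnit

open ModularCurve Fermat.Agent.S24 Fermat.Agent.S18 Fermat.Agent.S18.Descent

variable {a : ℕ} {χ : ℤ → ℤ} {G : UpperHalfPlane → ℂ} {Gs : PowerSeries ℤ}

/-- The series `G(t) / G(t^m)` over a field `K`. -/
noncomputable def xserK (K : Type*) [Field K] (Gs : PowerSeries ℤ) (m : ℕ) [NeZero m] :
    LaurentSeries K :=
  Lib.Hauptmodul.toL K Gs / qExpand K m (Lib.Hauptmodul.toL K Gs)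

theorem xserK_bar (Gs : PowerSeries ℤ) (m : ℕ) [NeZero m] : xserK Kbar Gs m = xser Gs m := rfl

/-- (`Hauptmodul.coeffMap_toL`, `coeffMap_qExpand`, `map_div₀`.) -/
theorem coeffMap_xserK {K L : Type*} [Field K] [Field L] (f : K →+* L) (Gs : PowerSeries ℤ)
    (m : ℕ) [NeZero m] : coeffMap f (xserK K Gs m) = xserK L Gs m := by
  rw [xserK, xserK, map_div₀, coeffMap_qExpand, Lib.Hauptmodul.coeffMap_toL]

/-- PROOF.  `xser_mem` gives `xserK Kbar Gs m ∈ modularFunctionFieldBar N`; this is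
`coeffMap (algebraMap ℚ Kbar) (xserK ℚ Gs m)`; descend with
`S28.Export.mem_adjoin_of_coeffMap_mem` as in the proof of `S28.Export.u_mem_full`
(`bar_eq_full`, `full_eq_adjoin_image`). -/
theorem xserK_rat_mem (h : IsW1 a χ G Gs) (m N : ℕ) [NeZero m] [NeZero N] (hm : Nat.Coprime m a)
    (hN : a * m ∣ N) : xserK ℚ Gs m ∈ modularFunctionFieldFull N := by
  have h1 : xserK Kbar Gs m ∈ modularFunctionFieldBar N := xser_mem h m N hm hN
  rw [S28.Export.bar_eq_full, S28.Export.full_eq_adjoin_image,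
    ← coeffMap_xserK (algebraMap ℚ Kbar) Gs m] at h1
  exact S28.Export.mem_adjoin_of_coeffMap_mem _ _ h1

/-- (`coeffEmb_mem_laurentBaseChange`, `coeffEmb K = coeffMap (algebraMap ℚ K)`, `coeffMap_xserK`.) -/
theorem xserK_mem (h : IsW1 a χ G Gs) (m N : ℕ) [NeZero m] [NeZero N] (hm : Nat.Coprime m a)
    (hN : a * m ∣ N) (K : Type*) [Field K] [Algebra ℚ K] : xserK K Gs m ∈ FK K N := by
  have h1 := coeffEmb_mem_laurentBaseChange K (xserK_rat_mem h m N hm hN)
  have h2 : coeffEmb K (xserK ℚ Gs m) = xserK K Gs m := coeffMap_xserK _ Gs m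
  rwa [h2] at h1

/-- The modular unit `G(τ) / G(m τ)` in the function field of `X₀(N)` over `K`. -/
noncomputable def unitK (h : IsW1 a χ G Gs) (m N : ℕ) [NeZero m] [NeZero N]
    (hm : Nat.Coprime m a) (hN : a * m ∣ N) (K : Type*) [Field K] [Algebra ℚ K] : FK K N :=
  ⟨xserK K Gs m, xserK_mem h m N hm hN K⟩

@[simp] theorem coe_unitK (h : IsW1 a χ G Gs) (m N : ℕ) [NeZero m] [NeZero N]
    (hm : Nat.Coprime m a) (hN : a * m ∣ N) (K : Type*) [Field K] [Algebra ℚ K] :
    ((unitK h m N hm hN K : FK K N) : LaurentSeries K) = xserK K Gs m := rfl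

theorem unitK_bar (h : IsW1 a χ G Gs) (m N : ℕ) [NeZero m] [NeZero N]
    (hm : Nat.Coprime m a) (hN : a * m ∣ N) : unitK h m N hm hN Kbar = unitF h m N hm hN := rfl

theorem baseChangeMap_unitK (h : IsW1 a χ G Gs) (m N : ℕ) [NeZero m] [NeZero N]
    (hm : Nat.Coprime m a) (hN : a * m ∣ N) {K L : Type*} [Field K] [Algebra ℚ K] [Field L]
    [Algebra ℚ L] (φ : K →+* L) :
    baseChangeMap (modularFunctionFieldFull N) φ (unitK h m N hm hN K) = unitK h m N hm hN L := by
  ext1
  exact coeffMap_xserK φ Gs m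

theorem unitK_ne_zero (h : IsW1 a χ G Gs) (m N : ℕ) [NeZero m] [NeZero N]
    (hm : Nat.Coprime m a) (hN : a * m ∣ N) (K : Type*) [Field K] [Algebra ℚ K] :
    unitK h m N hm hN K ≠ 0 := by
  intro h0
  have h1 : xserK K Gs m = 0 := congrArg Subtype.val h0
  rw [← coeffMap_xserK (algebraMap ℚ K) Gs m] at h1
  have h2 : xserK ℚ Gs m = 0 := (map_eq_zero _).1 h1
  apply unitF_ne_zero h m N hm hN
  ext1
  show xserK Kbar Gs m = 0
  rw [← coeffMap_xserK (algebraMap ℚ Kbar) Gs m, h2, map_zero]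

theorem baseChangeMap_jK_bar (N : ℕ) [NeZero N] (K : Type*) [Field K] [Algebra ℚ K]
    (φ : K →+* Kbar) : baseChangeMap (modularFunctionFieldFull N) φ (jK K N) = jF N := by
  ext1
  show coeffMap φ (coeffEmb K jq) = coeffEmb Kbar (qExpand ℚ 1 jq)
  rw [coeffMap_coeffEmb', qExpand_one_apply]

theorem isAlgebraic_Kbar_of_algebra (K : Type*) [Field K] [Algebra ℚ K] [Algebra K Kbar] :
    Algebra.IsAlgebraic K Kbar := by
  have : IsScalarTower ℚ K Kbar := IsScalarTower.of_algebraMap_eq' (Subsingleton.elim _ _)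
  have h2 : Algebra.IsAlgebraic ℚ Kbar := AlgebraicClosure.isAlgebraic ℚ
  exact Algebra.IsAlgebraic.tower_top (K := ℚ) K

/-- Descent of chart membership from `Kbar` to `K`. -/
theorem mem_chart_top_jK_iff (N : ℕ) [NeZero N] (K : Type*) [Field K] [Algebra ℚ K]
    [Algebra K Kbar] (z : FK K N) :
    z ∈ chart (⊤ : Subring K) (jK K N) ↔
      IsIntegral (Algebra.adjoin Kbar {jF N})
        (baseChangeMap (modularFunctionFieldFull N) (algebraMap K Kbar) z) := by
  have := isAlgebraic_Kbar_of_algebra K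
  rw [S18.mem_chart_top_descent (baseChangeMap (modularFunctionFieldFull N) (algebraMap K Kbar))
    (fun c => baseChangeMap_algebraMap _ c), baseChangeMap_jK_bar,
    S18.mem_chart_top_iff_isIntegral]

/-- PROOF.  `S18.mem_chart_top_descent` with `ι = baseChangeMap _ (algebraMap K Kbar)`
(`baseChangeMap_algebraMap`; `Kbar` is algebraic over `K` because it is algebraic over `ℚ`),
`ι (jK K N) = jF N`, `baseChangeMap_unitK`, `unitK_bar`, `S18.mem_chart_top_iff_isIntegral`,
`isIntegral_unitF`. -/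
theorem unitK_mem_chart_top (h : IsW1 a χ G Gs) (m N : ℕ) [NeZero m] [NeZero N]
    (hm : Nat.Coprime m a) (hN : a * m ∣ N) (K : Type*) [Field K] [Algebra ℚ K] [Algebra K Kbar] :
    unitK h m N hm hN K ∈ chart (⊤ : Subring K) (jK K N) := by
  rw [mem_chart_top_jK_iff, baseChangeMap_unitK, unitK_bar]
  exact isIntegral_unitF h m N hm hN

theorem unitK_inv_mem_chart_top (h : IsW1 a χ G Gs) (m N : ℕ) [NeZero m] [NeZero N]
    (hm : Nat.Coprime m a) (hN : a * m ∣ N) (K : Type*) [Field K] [Algebra ℚ K] [Algebra K Kbar] :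
    (unitK h m N hm hN K)⁻¹ ∈ chart (⊤ : Subring K) (jK K N) := by
  rw [mem_chart_top_jK_iff, map_inv₀, baseChangeMap_unitK, unitK_bar]
  exact isIntegral_unitF_inv h m N hm hN

end Fermat.Agent.Lib.EtaUnit
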