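/-
Lib/EtaUnit (architect helper213).  TASK EUK-2.
Statements are frozen interfaces (proofs: helper57).

The Atkin-Lehner involution `w_q` maps the unit `x = G(τ) / G(q τ)` to `χ(q) q / x`.
-/
import Fermat.Agent.Lib.EtaUnit.FK.Defs
import Fermat.Agent.GAL.E.Cusps.AtkinLehner
import Fermat.Agent.S36.Mod.EmbK

set_option autoImplicit false

namespace Fermat.Agent.Lib.EtaUnit

open ModularCurve Fermat.Agent.S24 Fermat.Agent.S24.B Fermat.Agent.S18 Fermat.Agent.S18.Descent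
open Fermat.Agent.S36.Mod

variable {a : ℕ} {χ : ℤ → ℤ} {G : UpperHalfPlane → ℂ} {Gs : PowerSeries ℤ}

/-- PROOF.  Apply `GAL.E.phiAL_injective N0 q` (i.e. `qExpand Kbar N0` is injective).
Left side: `GAL.E.qExpand_wAL` gives `texpL (N0 * q) ((alDelta N0 q hcop)⁻¹ • Psi _ u)`; now
`texpL_smul_unitF` with `γ = alDelta N0 q hcop = !![1, *; N0, s * q]` (it lies in `Gamma0 N0 ≤ Gamma0 a`),
`A = 1`, `B = 0`, `D = q`, `c' = N0`, `e = N0`, `ξ = 1` (`twist_one`).
Right side: `qExpand` is a ring homomorphism, `qExpand_qExpand`, `qExpand` of a constant. -/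
theorem wAL_unitF (h : IsW1 a χ G Gs) (N0 q : ℕ) [NeZero N0] [NeZero q] (hq : Nat.Coprime q a)
    (ha : a ∣ N0) (hcop : Nat.Coprime q N0) (hN : a * q ∣ N0 * q) :
    GAL.E.wAL N0 q hcop (unitF h q (N0 * q) hq hN) =
      algebraMap Kbar (FN (N0 * q)) (((χ q * q : ℤ) : Kbar)) * (unitF h q (N0 * q) hq hN)⁻¹ := by
  apply GAL.E.phiAL_injective N0 q
  have hγ : GAL.E.alDelta N0 q hcop ∈ CongruenceSubgroup.Gamma0 a := by
    rw [CongruenceSubgroup.Gamma0_mem]
    show (((N0 : ℤ) : ℤ) : ZMod a) = 0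
    rw [Int.cast_natCast]
    exact (ZMod.natCast_eq_zero_iff N0 a).mpr ha
  have hq0 : (0 : ℤ) < (q : ℤ) := by exact_mod_cast Nat.pos_of_ne_zero (NeZero.ne q)
  have h1 := texpL_smul_unitF h q (N0 * q) hq hN (GAL.E.alDelta N0 q hcop) hγ 1 0 (q : ℤ) (N0 : ℤ)
    one_pos hq0 (one_mul _) (by rw [mul_one]; rfl)
    (by
      rw [mul_zero, sub_zero]
      exact Dvd.intro_left (Int.gcdA q N0) rfl)
    N0 (by push_cast; ring) 1 (by simp)
  rw [GAL.E.phiAL_apply, GAL.E.qExpand_wAL, h1, twist_one, GAL.E.phiAL_apply]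
  have h2 : ((algebraMap Kbar (FN (N0 * q)) (((χ q * q : ℤ) : Kbar)) *
      (unitF h q (N0 * q) hq hN)⁻¹ : FN (N0 * q)) : LaurentSeries Kbar) =
      algebraMap Kbar (LaurentSeries Kbar) (((χ q * q : ℤ) : Kbar)) * (xser Gs q)⁻¹ := rfl
  rw [h2, map_mul, map_inv₀, xser, map_div₀, ModularCurve.qExpand_qExpand, inv_div,
    algebraMap_laurentSeries_eq_single, qExpand_single, mul_zero]
  rfl

/-- The same over an arbitrary subfield `K` of `ℚ̄`, for ANY `K`-endomorphism `w` of `FK K (N0 q)` which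
acts on the generators `j(t^d)` as the Atkin-Lehner involution.

PROOF.  `bc := baseChangeMap (modularFunctionFieldFull (N0 * q)) (algebraMap K Kbar)` is injective
(`baseChangeMap_injective`).  The ring homomorphisms `bc ∘ w` and `wAL ∘ bc` agree on the constants
and on the generators `JK` (`EmbK.toBar_JK`, `GAL.E.wAL_JF`, `hw`; every divisor of `N0 * q` is
`d * e`, `d ∣ N0`, `e * e' = q`: `EmbK.exists_factor`), so they are equal (`ringHom_ext_JK`).
Conclude with `baseChangeMap_unitK`, `unitK_bar`, `wAL_unitF`. -/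
theorem w_unitK (h : IsW1 a χ G Gs) (N0 q : ℕ) [NeZero N0] [NeZero q] (hq : Nat.Coprime q a)
    (ha : a ∣ N0) (hcop : Nat.Coprime q N0) (hN : a * q ∣ N0 * q)
    (K : Type*) [Field K] [Algebra ℚ K] [Algebra K Kbar]
    (w : FK K (N0 * q) →ₐ[K] FK K (N0 * q))
    (hw : ∀ (d e e' : ℕ) [NeZero d] [NeZero e] [NeZero e'], d ∣ N0 → e * e' = q →
      ∀ (h1 : d * e ∣ N0 * q) (h2 : d * e' ∣ N0 * q),
        w (JK K (N0 * q) (d * e) h1) = JK K (N0 * q) (d * e') h2) :
    w (unitK h q (N0 * q) hq hN K) =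
      algebraMap K (FK K (N0 * q)) (((χ q * q : ℤ) : K)) * (unitK h q (N0 * q) hq hN K)⁻¹ := by
  have key : (baseChangeMap (modularFunctionFieldFull (N0 * q)) (algebraMap K Kbar)).comp
      (w : FK K (N0 * q) →+* FK K (N0 * q)) =
      ((GAL.E.wAL N0 q hcop : FN (N0 * q) ≃ₐ[Kbar] FN (N0 * q)) : FN (N0 * q) →+* FN (N0 * q)).comp
        (baseChangeMap (modularFunctionFieldFull (N0 * q)) (algebraMap K Kbar)) := by
    apply ringHom_ext_JK
    · intro c
      show baseChangeMap (modularFunctionFieldFull (N0 * q)) (algebraMap K Kbar)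
          (w (algebraMap K _ c)) = GAL.E.wAL N0 q hcop
          (baseChangeMap (modularFunctionFieldFull (N0 * q)) (algebraMap K Kbar)
            (algebraMap K _ c))
      rw [AlgHom.commutes, baseChangeMap_algebraMap]
      exact (AlgEquiv.commutes (GAL.E.wAL N0 q hcop) _).symm
    · intro d _ hd
      obtain ⟨d0, e, e', rfl, hd0, he, he0, he'0⟩ := EmbK.exists_factor (NeZero.ne q) hd
      have : NeZero d0 := ⟨fun h0 => NeZero.ne N0 (by
        rw [h0] at hd0; exact Nat.eq_zero_of_zero_dvd hd0)⟩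
      have : NeZero e := ⟨he0⟩
      have : NeZero e' := ⟨he'0⟩
      have h2 : d0 * e' ∣ N0 * q := Nat.mul_dvd_mul hd0 ⟨e, by rw [← he, mul_comm]⟩
      show baseChangeMap (modularFunctionFieldFull (N0 * q)) (algebraMap K Kbar)
          (w (JK K (N0 * q) (d0 * e) hd)) = GAL.E.wAL N0 q hcop
          (baseChangeMap (modularFunctionFieldFull (N0 * q)) (algebraMap K Kbar)
            (JK K (N0 * q) (d0 * e) hd))
      rw [hw d0 e e' hd0 he hd h2, EmbK.toBar_JK, EmbK.toBar_JK,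
        GAL.E.wAL_JF N0 q hcop d0 e e' hd0 he hd h2]
  apply baseChangeMap_injective (F₀ := modularFunctionFieldFull (N0 * q)) (algebraMap K Kbar)
  have h1 : baseChangeMap (modularFunctionFieldFull (N0 * q)) (algebraMap K Kbar)
      (w (unitK h q (N0 * q) hq hN K)) = GAL.E.wAL N0 q hcop
      (baseChangeMap (modularFunctionFieldFull (N0 * q)) (algebraMap K Kbar)
        (unitK h q (N0 * q) hq hN K)) := RingHom.congr_fun key _
  rw [h1, map_mul, map_inv₀, baseChangeMap_unitK, unitK_bar, baseChangeMap_algebraMap, map_intCast,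
    wAL_unitF h N0 q hq ha hcop hN]

/-- The case of `S36.Mod.wAL`. -/
theorem wAL_unitK (h : IsW1 a χ G Gs) (N0 q : ℕ) [NeZero N0] [NeZero q] (hq : Nat.Coprime q a)
    (ha : a ∣ N0) (hcop : Nat.Coprime N0 q) (hN : a * q ∣ N0 * q)
    (K : Type*) [Field K] [Algebra ℚ K] [Algebra K Kbar] :
    wAL K (N0 * q) N0 q rfl hcop (unitK h q (N0 * q) hq hN K) =
      algebraMap K (FK K (N0 * q)) (((χ q * q : ℤ) : K)) * (unitK h q (N0 * q) hq hN K)⁻¹ :=
  w_unitK h N0 q hq ha hcop.symm hN K _ fun d e e' _ _ _ hd he h1 h2 =>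
    wAL_JK K (N0 * q) N0 q rfl hcop d e e' hd he h1 h2

/-- `χ(q) = ± 1`. -/
theorem chi_eq_one_or (h : IsW1 a χ G Gs) (q : ℕ) (hq : Nat.Coprime q a) :
    χ q = 1 ∨ χ q = -1 :=
  mul_self_eq_one_iff.mp (h.chi_sq q (Nat.isCoprime_iff_coprime.mpr hq))

end Fermat.Agent.Lib.EtaUnit
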