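/-
Lib/EtaUnit (architect helper213).  TASK EUK-3.
Proofs: helper161.

The series of the unit `G(t) / G(t^m)` has integer coefficients and constant term one: it is a unit
of every Gauss valuation ring; its reduction in characteristic `q = m` is `G^(1-q)`.
-/
import Fermat.Agent.Lib.EtaUnit.FK.Defs
import Fermat.Agent.S36.Mod.Fields
import Fermat.Agent.S36.Mod.GaussEmb.Basic
import Fermat.Agent.Lib.MulHecke.Frob

set_option autoImplicit false

namespace Fermat.Agent.Lib.EtaUnit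

open ModularCurve Fermat.Agent.S24 Fermat.Agent.S18 Fermat.Agent.S18.Vert
open Fermat.Agent.S36.Mod Fermat.Agent.Lib.Hauptmodul

variable {a : ℕ} {χ : ℤ → ℤ} {G : UpperHalfPlane → ℂ} {Gs : PowerSeries ℤ}

/-- The integral power series `G(t) / G(t^m)`. -/
noncomputable def xserZ (Gs : PowerSeries ℤ) (m : ℕ) : PowerSeries ℤ :=
  Gs * (dilZ m Gs).invOfUnit 1

/-- The integral power series `G(t^m) / G(t)`. -/
noncomputable def xserZinv (Gs : PowerSeries ℤ) (m : ℕ) : PowerSeries ℤ :=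
  dilZ m Gs * Gs.invOfUnit 1

theorem constantCoeff_xserZ (hG : PowerSeries.constantCoeff Gs = 1) (m : ℕ) [NeZero m] :
    PowerSeries.constantCoeff (xserZ Gs m) = 1 := by
  rw [xserZ, map_mul, hG, PowerSeries.constantCoeff_invOfUnit]
  simp

theorem xserZ_mul_inv (hG : PowerSeries.constantCoeff Gs = 1) (m : ℕ) [NeZero m] :
    xserZ Gs m * xserZinv Gs m = 1 := by
  have h1 : Gs * Gs.invOfUnit 1 = 1 := PowerSeries.mul_invOfUnit _ _ (by rw [hG]; rfl)
  have h2 : dilZ m Gs * (dilZ m Gs).invOfUnit 1 = 1 :=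
    PowerSeries.mul_invOfUnit _ _ (by rw [constantCoeff_dilZ, hG]; rfl)
  calc xserZ Gs m * xserZinv Gs m
      = (Gs * Gs.invOfUnit 1) * (dilZ m Gs * (dilZ m Gs).invOfUnit 1) := by
        rw [xserZ, xserZinv]; ring
    _ = 1 := by rw [h1, h2, one_mul]

/-- (`toL_dilZ`, `toL_mul_toL_invOfUnit`.) -/
theorem toL_xserZ (hG : PowerSeries.constantCoeff Gs = 1) (m : ℕ) [NeZero m] (K : Type*) [Field K] :
    Lib.Hauptmodul.toL K (xserZ Gs m) = xserK K Gs m := by
  have h2 := toL_mul_toL_invOfUnit K (dilZ m Gs) (by rw [constantCoeff_dilZ, hG])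
  rw [xserZ, map_mul, xserK, ← toL_dilZ, div_eq_mul_inv, eq_inv_of_mul_eq_one_right h2]

theorem toL_xserZinv (hG : PowerSeries.constantCoeff Gs = 1) (m : ℕ) [NeZero m] (K : Type*)
    [Field K] : Lib.Hauptmodul.toL K (xserZinv Gs m) = (xserK K Gs m)⁻¹ := by
  have h1 := congrArg (Lib.Hauptmodul.toL K) (xserZ_mul_inv hG m)
  rw [map_mul, map_one, toL_xserZ hG m K] at h1
  exact eq_inv_of_mul_eq_one_right h1

/-- In characteristic `q`: `G(t^q) = G(t)^q` (integer coefficients), so `x = G^(1-q)`. -/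
theorem xserK_mul_pow (hG : PowerSeries.constantCoeff Gs = 1) (q : ℕ) [NeZero q] (hq : q.Prime)
    (k : Type*) [Field k] [CharP k q] :
    xserK k Gs q * Lib.Hauptmodul.toL k Gs ^ (q - 1) = 1 := by
  haveI : Fact q.Prime := ⟨hq⟩
  have hf : Lib.Hauptmodul.toL k Gs ≠ 0 := by
    intro h0
    have := toL_mul_toL_invOfUnit k Gs hG
    rw [h0, zero_mul] at this
    exact zero_ne_one this
  have h1 : qExpand k q (Lib.Hauptmodul.toL k Gs) = Lib.Hauptmodul.toL k Gs ^ q := by
    rw [Lib.MulHecke.pow_char_eq, coeffMap_toL]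
  rw [xserK, h1]
  obtain ⟨r, rfl⟩ : ∃ r, q = r + 1 := ⟨q - 1, (Nat.succ_pred_eq_of_pos hq.pos).symm⟩
  rw [Nat.add_sub_cancel, pow_succ]
  field_simp

/-- The unit is a unit of the Gauss valuation ring (language of `S18.IsGauss`).
(`IsGauss.mem`, `IsGauss.inv_mem` applied to `P = toL A₀ (xserZ Gs m)`; `coeffMap_toL`; the reduction
of `P` has constant coefficient one.) -/
theorem valuation_unitK (h : IsW1 a χ G Gs) (m N : ℕ) [NeZero m] [NeZero N]
    (hm : Nat.Coprime m a) (hN : a * m ∣ N) {K : Type*} [Field K] [Algebra ℚ K]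
    {A₀ : ValuationSubring K} {ϖ₀ : K} {Ow : ValuationSubring (FK K N)}
    (hG : IsGauss A₀ ϖ₀ (FK K N) Ow) : Ow.valuation (unitK h m N hm hN K) = 1 := by
  have hc := h.const
  have e1 : coeffMap A₀.subtype (Lib.Hauptmodul.toL A₀ (xserZ Gs m)) = xserK K Gs m := by
    rw [coeffMap_toL, toL_xserZ hc m K]
  have hP : coeffMap A₀.subtype (Lib.Hauptmodul.toL A₀ (xserZ Gs m)) ∈ FK K N := by
    rw [e1]; exact xserK_mem h m N hm hN K
  have e2 : (⟨_, hP⟩ : FK K N) = unitK h m N hm hN K := Subtype.ext e1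
  have hne : coeffMap (IsLocalRing.residue A₀) (Lib.Hauptmodul.toL A₀ (xserZ Gs m)) ≠ 0 := by
    rw [coeffMap_toL]
    intro h0
    have h1 := toL_coeff_natCast (IsLocalRing.ResidueField A₀) (xserZ Gs m) 0
    rw [h0, PowerSeries.coeff_zero_eq_constantCoeff_apply, constantCoeff_xserZ hc m] at h1
    simp at h1
  have m1 := hG.mem _ hP
  have m2 := hG.inv_mem _ hP hne
  rw [e2] at m1 m2
  have l1 := (Ow.valuation_le_one_iff _).2 m1
  have l2 := (Ow.valuation_le_one_iff _).2 m2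
  rw [map_inv₀] at l2
  have h0 : Ow.valuation (unitK h m N hm hN K) ≠ 0 :=
    (Valuation.ne_zero_iff _).2 (unitK_ne_zero h m N hm hN K)
  exact le_antisymm l1 ((inv_le_one₀ (zero_lt_iff.2 h0)).1 l2)

/-- The same in the language of `S36.Mod.IntEmb`. -/
theorem unitK_mem_val (h : IsW1 a χ G Gs) (m N : ℕ) [NeZero m] [NeZero N]
    (hm : Nat.Coprime m a) (hN : a * m ∣ N) {K : Type*} [Field K] [Algebra ℚ K]
    (A : ValuationSubring K) [IsDiscreteValuationRing A] :
    unitK h m N hm hN K ∈ (stdEmb A N).val := by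
  refine (stdEmb A N).mem_val_of_eq_inc (P := Lib.Hauptmodul.toL A (xserZ Gs m)) ?_
  rw [stdEmb_toHom_apply, coe_unitK, inc, coeffMap_toL, toL_xserZ h.const m K]

theorem unitK_inv_mem_val (h : IsW1 a χ G Gs) (m N : ℕ) [NeZero m] [NeZero N]
    (hm : Nat.Coprime m a) (hN : a * m ∣ N) {K : Type*} [Field K] [Algebra ℚ K]
    (A : ValuationSubring K) [IsDiscreteValuationRing A] :
    (unitK h m N hm hN K)⁻¹ ∈ (stdEmb A N).val := by
  refine (stdEmb A N).mem_val_of_eq_inc (P := Lib.Hauptmodul.toL A (xserZinv Gs m)) ?_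
  rw [map_inv₀, stdEmb_toHom_apply, coe_unitK, inc, coeffMap_toL, toL_xserZinv h.const m K]

/-- (`IntEmb.res_of_eq_inc` with `P = toL A (xserZ Gs m)`.) -/
theorem res_unitK (h : IsW1 a χ G Gs) (m N : ℕ) [NeZero m] [NeZero N]
    (hm : Nat.Coprime m a) (hN : a * m ∣ N) {K : Type*} [Field K] [Algebra ℚ K]
    (A : ValuationSubring K) [IsDiscreteValuationRing A] :
    (stdEmb A N).res ⟨unitK h m N hm hN K, unitK_mem_val h m N hm hN A⟩ =
      xserK (IsLocalRing.ResidueField A) Gs m := by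
  have e : (stdEmb A N).toHom (unitK h m N hm hN K) =
      inc A (Lib.Hauptmodul.toL A (xserZ Gs m)) := by
    rw [stdEmb_toHom_apply, coe_unitK, inc, coeffMap_toL, toL_xserZ h.const m K]
  have h1 := (stdEmb A N).res_of_eq_inc e
  rw [red, coeffMap_toL, toL_xserZ h.const m] at h1
  exact h1

end Fermat.Agent.Lib.EtaUnit
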