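/-
Lib/EtaUnit (architect helper213).  TASK EUK-4.
SKELETON FILE: statements are frozen interfaces; the task owner replaces every `sorry`.

THE CONSUMER FILE: the unit `x = G(τ) / G(q τ)` of level `N0 q` for a prime `q ∤ N0`, where
`G = G₄` (`4 ∣ N0`) if `q ≠ 2` and `G = G₉` (`9 ∣ N0`) if `q = 2`.
-/
import Fermat.Agent.Lib.EtaUnit.FK.AL
import Fermat.Agent.Lib.EtaUnit.FK.Gauss
import Fermat.Agent.Lib.EtaUnit.G4.Main
import Fermat.Agent.Lib.EtaUnit.G9.Main

set_option autoImplicit false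

namespace Fermat.Agent.Lib.EtaUnit

open ModularCurve Fermat.Agent.S24 Fermat.Agent.S18 Fermat.Agent.S18.Vert
open Fermat.Agent.S36.Mod

/-- A weight one form without zeros. -/
structure W1Pack where
  a : ℕ
  χ : ℤ → ℤ
  G : UpperHalfPlane → ℂ
  Gs : PowerSeries ℤ
  h : IsW1 a χ G Gs

/-- `G₉` for `q = 2`, `G₄` otherwise. -/
noncomputable def pack (q : ℕ) : W1Pack :=
  if q = 2 then ⟨9, chi3, G9, G9s, isW1_G9⟩ else ⟨4, chi4, G4, G4s, isW1_G4⟩

theorem pack_a (q : ℕ) : (pack q).a = if q = 2 then 9 else 4 := by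
  unfold pack
  split_ifs <;> rfl

theorem pack_coprime {q : ℕ} (hq : q.Prime) : Nat.Coprime q (pack q).a := by
  rw [pack_a]
  split_ifs with h
  · subst h
    decide
  · have h4 : (4 : ℕ) = 2 ^ 2 := by norm_num
    rw [h4]
    exact Nat.Coprime.pow_right 2 ((Nat.coprime_primes hq Nat.prime_two).2 h)

theorem pack_dvd {q N0 : ℕ} (haux : if q = 2 then 9 ∣ N0 else 4 ∣ N0) : (pack q).a ∣ N0 := by
  rw [pack_a]
  split_ifs with h
  · rwa [if_pos h] at haux
  · rwa [if_neg h] at haux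

/-- The sign `ε = χ(q)`. -/
noncomputable def eps (q : ℕ) : ℤ := (pack q).χ q

theorem eps_eq {q : ℕ} (hq : q.Prime) : eps q = 1 ∨ eps q = -1 :=
  chi_eq_one_or (pack q).h q (pack_coprime hq)

/-- The `q`-expansion of `G`. -/
noncomputable def Gq (q : ℕ) : PowerSeries ℤ := (pack q).Gs

theorem constantCoeff_Gq (q : ℕ) : PowerSeries.constantCoeff (Gq q) = 1 := (pack q).h.const

variable (K : Type*) [Field K] [Algebra ℚ K] (q N0 : ℕ) [NeZero q] [NeZero N0]

/-- **The modular unit** `x = G(τ) / G(q τ)` of level `N0 q` over `K`. -/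
noncomputable def etaK (hq : q.Prime) (haux : if q = 2 then 9 ∣ N0 else 4 ∣ N0) : FK K (N0 * q) :=
  unitK (pack q).h q (N0 * q) (pack_coprime hq) (Nat.mul_dvd_mul_right (pack_dvd haux) q) K

variable (hq : q.Prime) (haux : if q = 2 then 9 ∣ N0 else 4 ∣ N0)

theorem coe_etaK : ((etaK K q N0 hq haux : FK K (N0 * q)) : LaurentSeries K) = xserK K (Gq q) q :=
  rfl

theorem etaK_ne_zero : etaK K q N0 hq haux ≠ 0 := unitK_ne_zero _ _ _ _ _ K

theorem etaK_mem_chart_top [Algebra K Kbar] :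
    etaK K q N0 hq haux ∈ chart (⊤ : Subring K) (jK K (N0 * q)) :=
  unitK_mem_chart_top _ _ _ _ _ K

theorem etaK_inv_mem_chart_top [Algebra K Kbar] :
    (etaK K q N0 hq haux)⁻¹ ∈ chart (⊤ : Subring K) (jK K (N0 * q)) :=
  unitK_inv_mem_chart_top _ _ _ _ _ K

/-- **(AL)** `w_q x = ε q / x`. -/
theorem w_etaK [Algebra K Kbar] (hqN : ¬ q ∣ N0) (w : FK K (N0 * q) →ₐ[K] FK K (N0 * q))
    (hw : ∀ (d e e' : ℕ) [NeZero d] [NeZero e] [NeZero e'], d ∣ N0 → e * e' = q →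
      ∀ (h1 : d * e ∣ N0 * q) (h2 : d * e' ∣ N0 * q),
        w (JK K (N0 * q) (d * e) h1) = JK K (N0 * q) (d * e') h2) :
    w (etaK K q N0 hq haux) =
      algebraMap K (FK K (N0 * q)) (((eps q * q : ℤ) : K)) * (etaK K q N0 hq haux)⁻¹ :=
  w_unitK (pack q).h N0 q (pack_coprime hq) (pack_dvd haux)
    ((Nat.Prime.coprime_iff_not_dvd hq).2 hqN) _ K w hw

theorem wAL_etaK [Algebra K Kbar] (hcop : Nat.Coprime N0 q) :
    wAL K (N0 * q) N0 q rfl hcop (etaK K q N0 hq haux) =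
      algebraMap K (FK K (N0 * q)) (((eps q * q : ℤ) : K)) * (etaK K q N0 hq haux)⁻¹ :=
  wAL_unitK (pack q).h N0 q (pack_coprime hq) (pack_dvd haux) hcop _ K

theorem valuation_etaK {A₀ : ValuationSubring K} {ϖ₀ : K} {Ow : ValuationSubring (FK K (N0 * q))}
    (hG : IsGauss A₀ ϖ₀ (FK K (N0 * q)) Ow) : Ow.valuation (etaK K q N0 hq haux) = 1 :=
  valuation_unitK _ _ _ _ _ hG

theorem etaK_mem_val (A : ValuationSubring K) [IsDiscreteValuationRing A] :
    etaK K q N0 hq haux ∈ (stdEmb A (N0 * q)).val := unitK_mem_val _ _ _ _ _ A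

theorem etaK_inv_mem_val (A : ValuationSubring K) [IsDiscreteValuationRing A] :
    (etaK K q N0 hq haux)⁻¹ ∈ (stdEmb A (N0 * q)).val := unitK_inv_mem_val _ _ _ _ _ A

theorem res_etaK (A : ValuationSubring K) [IsDiscreteValuationRing A] :
    (stdEmb A (N0 * q)).res ⟨etaK K q N0 hq haux, etaK_mem_val K q N0 hq haux A⟩ =
      xserK (IsLocalRing.ResidueField A) (Gq q) q := res_unitK _ _ _ _ _ A

end Fermat.Agent.Lib.EtaUnit
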